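import Fermat.Agent.DeltaFamily.RankOne
import Fermat.Agent.Root.EtaEleven
import Fermat.Agent.Root.SummaryLevelPPadic

/-!
# `Δ` at `p = 11` and at `p = 691`

At `11` the family of `Δ` takes in weight two the value `η(z)² η(11z)²`. At `691` the eigenvalue is
`1` modulo `p` by Ramanujan's congruence.
-/

set_option autoImplicit false
set_option linter.unusedSectionVars false

noncomputable section

open UpperHalfPlane hiding I
open PowerSeries CongruenceSubgroup
open scoped MatrixGroups ModularForm ArithmeticFunction.sigma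

namespace FA.DeltaFamily

open FA.PadicForms FA.OrdinaryProj FA.LambdaForms FA.LambdaHecke

theorem cuspInt_twelve : cuspInt 12 = FA.Tau.deltaInt := by
  simp [cuspInt, expA, expB]

theorem fact_prime_eleven : Fact (Nat.Prime 11) := ⟨by norm_num⟩

theorem fact_prime_sixNinetyOne : Fact (Nat.Prime 691) := ⟨by norm_num⟩

attribute [local instance] fact_prime_eleven fact_prime_sixNinetyOne

/-- `η(z)² η(11z)²` as a form of level `11`. -/
theorem exists_form_eleven : ∃ F : ModularForm (Gamma0 11 : Subgroup (GL (Fin 2) ℝ)) ((2 : ℕ) : ℤ),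
    qExpansion 1 ⇑F = (FA.Tau.elevenInt.map (Int.castRingHom ℚ)).map (Rat.castHom ℂ) := by
  refine ⟨(FA.EtaEleven.formEleven : ModularForm (Gamma0 11) 2), ?_⟩
  rw [map_int_rat]
  exact PowerSeries.ext fun n => by
    show ModularFormClass.qCoeff FA.EtaEleven.formEleven n = _
    rw [FA.EtaEleven.qCoeff_formEleven, coeff_map]
    rfl

theorem eleven_mem_ordPart :
    toQp 11 (FA.Tau.elevenInt.map (Int.castRingHom ℚ)) ∈ ordPart (natWeight 11 2) := by
  obtain ⟨F, hF⟩ := exists_form_eleven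
  rw [FA.LevelPPadic.Summary.ordinary_weight_two (p := 11) (by norm_num)]
  exact Submodule.subset_span ⟨F, _, hF, rfl⟩

/-- `11` does not divide `τ(11)`. -/
theorem not_dvd_tau_eleven : ¬((11 : ℕ) : ℤ) ∣ coeff 11 (cuspInt 12) := by
  intro h
  obtain ⟨F, hF⟩ := exists_form_eleven
  have hsq := FA.LevelPPadic.Summary.weight_two_U_sq (p := 11) F hF 1
  rw [coeff_map, coeff_map, eq_intCast, eq_intCast, Int.cast_inj, mul_one] at hsq
  have he : coeff 1 FA.Tau.elevenInt = 1 := FA.EtaEleven.coeff_series_one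
  rw [he] at hsq
  have hc := FA.Tau.dvd_coeff_deltaInt_sub (11 * 11)
  rw [hsq, ← cuspInt_twelve] at hc
  have hh := congrArg (coeff 11)
    (cuspInt_hecke (k := 12) (by decide) (show Nat.Prime 11 by norm_num))
  rw [coeff_tSer, if_pos dvd_rfl, Nat.div_self (by norm_num), coeff_cuspInt_one, coeff_C_mul] at hh
  obtain ⟨t, ht⟩ := h
  obtain ⟨u, hu⟩ := hc
  obtain ⟨q, hq⟩ : ∃ q : ℤ, q = (11 : ℤ) ^ (12 - 2) := ⟨_, rfl⟩
  have he2 : ((11 : ℕ) : ℤ) ^ (12 - 1) = 11 * q := by rw [hq]; norm_num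
  rw [he2, ht] at hh
  push_cast at hh
  have h11 : (11 : ℤ) ∣ 1 := ⟨11 * t * t - q - u, by linear_combination hh - hu⟩
  norm_num at h11

/-- `691` does not divide `τ(691)`. -/
theorem not_dvd_tau_sixNinetyOne : ¬((691 : ℕ) : ℤ) ∣ coeff 691 (cuspInt 12) := by
  intro h
  rw [cuspInt_twelve] at h
  have h1 := dvd_sub h (FA.Tau.dvd_coeff_deltaInt_sub_sigma 691)
  rw [sub_sub_cancel, ArithmeticFunction.sigma_apply, Nat.Prime.divisors (by norm_num),
    Finset.sum_pair (by norm_num), one_pow] at h1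
  norm_num at h1

/-- **At `11` the family of `Δ` has the value `η(z)² η(11z)²` in weight two.** -/
theorem deltaFam_eleven :
    ∃ (hk : (12 : ℕ) ∈ sixWeights) (hkc : ((12 : ℕ) : ZMod (11 - 1)) = ((2 : ℕ) : ZMod (11 - 1)))
      (ha : ¬((11 : ℕ) : ℤ) ∣ coeff 11 (cuspInt 12)),
      (deltaFam (p := 11) (by norm_num) (by norm_num) hk hkc ha).map
          (evalLam (p := 11) (by norm_num) ((2 : ℕ) : ℤ_[11])) =
        FA.Tau.elevenInt.map (Int.castRingHom ℤ_[11]) := by
  have hk : (12 : ℕ) ∈ sixWeights := by decide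
  have hkc : ((12 : ℕ) : ZMod (11 - 1)) = ((2 : ℕ) : ZMod (11 - 1)) := by decide
  refine ⟨hk, hkc, not_dvd_tau_eleven, toQps_injective ?_⟩
  have h1 : coeff 1 FA.Tau.elevenInt = 1 := FA.EtaEleven.coeff_series_one
  have h0 : coeff 0 FA.Tau.elevenInt = 0 := by simp [FA.Tau.elevenInt]
  have h := eq_mul_spec (p := 11) (hp2 := by norm_num) (by norm_num) hk hkc not_dvd_tau_eleven
    eleven_mem_ordPart (by rw [coeff_toQp, coeff_map, h0, map_zero, Rat.cast_zero])
  rw [coeff_toQp, coeff_map, h1, map_one, Rat.cast_one, map_one, one_mul] at h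
  refine h.symm.trans (PowerSeries.ext fun n => ?_)
  simp

end FA.DeltaFamily

end
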