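import Fermat.Agent.LambdaEisenstein.Irregular
import Fermat.Agent.Tau.Mordell

/-!
# The six weights with one cusp form

In the weights `12, 16, 18, 20, 22, 26` two monomials in `E₄, E₆` span the forms of level one, so
the normalised cusp form is an eigenform and the forms modulo `p` have dimension at most two.
-/

set_option autoImplicit false
set_option linter.unusedSectionVars false

noncomputable section

open UpperHalfPlane hiding I
open PowerSeries
open scoped MatrixGroups ModularForm

namespace FA.DeltaFamily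

open FA.Eis FA.Tau FA.PadicForms FA.OrdinaryProj FA.SiegelKlingen FA.SwinnertonDyer FA.LambdaHecke

/-- The weights with one cusp form of level one. -/
def sixWeights : Finset ℕ := {12, 16, 18, 20, 22, 26}

/-- The exponent of `E₆`. -/
def expB (k : ℕ) : ℕ := if (k - 12) % 4 = 0 then 0 else 1

/-- The exponent of `E₄`. -/
def expA (k : ℕ) : ℕ := (k - 12 - 6 * expB k) / 4

/-- The normalised cusp form of weight `k`. -/
def cuspInt (k : ℕ) : PowerSeries ℤ :=
  eFourInt ^ expA k * eSixInt ^ expB k * deltaInt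

theorem exponents {k : ℕ} (hk : k ∈ sixWeights) :
    12 ≤ k ∧ Even k ∧ 4 * expA k + 6 * expB k + 12 = k ∧
      ∀ x y : ℕ, 4 * x + 6 * y = k →
        (x = expA k + 3 ∧ y = expB k) ∨ (x = expA k ∧ y = expB k + 2) := by
  simp only [sixWeights, Finset.mem_insert, Finset.mem_singleton] at hk
  rcases hk with rfl | rfl | rfl | rfl | rfl | rfl <;>
    refine ⟨by norm_num, by decide, rfl, fun x y h => ?_⟩ <;> norm_num [expA, expB] <;> omega

theorem coeff_cuspInt_zero (k : ℕ) : coeff 0 (cuspInt k) = 0 := by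
  rw [cuspInt, coeff_zero_eq_constantCoeff_apply, map_mul, ← coeff_zero_eq_constantCoeff_apply
    deltaInt, coeff_deltaInt_zero, mul_zero]

theorem coeff_cuspInt_one (k : ℕ) : coeff 1 (cuspInt k) = 1 := by
  have h : constantCoeff (eFourInt ^ expA k * eSixInt ^ expB k) = 1 := by
    rw [map_mul, map_pow, map_pow]
    simp [eFourInt, eSixInt, ← coeff_zero_eq_constantCoeff_apply]
  have h0 : constantCoeff deltaInt = 0 := by
    rw [← coeff_zero_eq_constantCoeff_apply, coeff_deltaInt_zero]
  rw [cuspInt, coeff_mul, Finset.Nat.antidiagonal_succ, Finset.sum_cons, Finset.sum_map]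
  simp [coeff_deltaInt_one, coeff_zero_eq_constantCoeff_apply, h, h0]

theorem isRatForm_deltaInt : IsRatForm 12 (deltaInt.map (Int.castRingHom ℚ)) := by
  refine isRatForm_of_hasQ (f := ModularForm.discriminant)
    (fun γ => (CuspForm.discriminant).slash_action_eq' _ ⟨γ, rfl⟩) ?_
  rw [map_int_rat]
  exact FA.Tau.hasQ_discriminant

theorem isRatForm_cuspInt {k : ℕ} (hk : k ∈ sixWeights) :
    IsRatForm k ((cuspInt k).map (Int.castRingHom ℚ)) := by
  have h4 : IsRatForm 4 (eFourInt.map (Int.castRingHom ℚ)) :=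
    IsRatForm.of_int (F := ModularForm.E₄) qExpansion_eFour
  have h6 : IsRatForm 6 (eSixInt.map (Int.castRingHom ℚ)) :=
    IsRatForm.of_int (F := ModularForm.E₆) qExpansion_eSix
  have h := ((h4.pow (expA k)).mul (h6.pow (expB k))).mul isRatForm_deltaInt
  rw [show expA k * 4 + expB k * 6 + 12 = k by have := (exponents hk).2.2.1; omega, ← map_pow,
    ← map_pow, ← map_mul, ← map_mul] at h
  exact h

/-- The two monomials. -/
def monoPair (k : ℕ) : Fin 2 → ℕ × ℕ := ![(expA k + 3, expB k), (expA k, expB k + 2)]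

theorem exists_monomials {k : ℕ} (hk : k ∈ sixWeights) {S : PowerSeries ℚ} (h : IsRatForm k S) :
    ∃ A B : ℂ, S.map (Rat.castHom ℂ) =
      C A * (monoInt (monoPair k 0)).map (Int.castRingHom ℂ) +
        C B * (monoInt (monoPair k 1)).map (Int.castRingHom ℂ) := by
  classical
  obtain ⟨F, hF⟩ := h
  obtain ⟨x, hx⟩ := Finsupp.mem_span_range_iff_exists_finsupp.1
    (LevelOneRing.mem_span (k + 1) (k : ℤ) (by omega) F)
  rw [Finsupp.sum] at hx
  have hA : S.map (Rat.castHom ℂ) =
      ∑ i ∈ x.support, x i • (monoInt i.1).map (Int.castRingHom ℂ) := by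
    rw [← hF]
    refine (hasQ_form F).unique one_pos ?_
    rw [← hx]
    exact HasQ.sum _ fun i _ => (hasQ_monomial (k : ℤ) i).smul (x i)
  have hmem : ∀ i : {p : ℕ × ℕ // 4 * (p.1 : ℤ) + 6 * p.2 = (k : ℤ)},
      i.1 = monoPair k 0 ∨ i.1 = monoPair k 1 := fun i => by
    obtain ⟨⟨u, v⟩, huv⟩ := i
    rcases (exponents hk).2.2.2 u v (by exact_mod_cast huv) with ⟨rfl, rfl⟩ | ⟨rfl, rfl⟩
    · exact Or.inl rfl
    · exact Or.inr rfl
  rw [hA]
  have : ∀ i ∈ x.support, ∃ A B : ℂ, x i • (monoInt i.1).map (Int.castRingHom ℂ) =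
      C A * (monoInt (monoPair k 0)).map (Int.castRingHom ℂ) +
        C B * (monoInt (monoPair k 1)).map (Int.castRingHom ℂ) := fun i _ => by
    rcases hmem i with e | e
    · exact ⟨x i, 0, by rw [e, map_zero, zero_mul, add_zero, PowerSeries.smul_eq_C_mul]⟩
    · exact ⟨0, x i, by rw [e, map_zero, zero_mul, zero_add, PowerSeries.smul_eq_C_mul]⟩
  choose! A B hAB using this
  refine ⟨∑ i ∈ x.support, A i, ∑ i ∈ x.support, B i, ?_⟩
  rw [Finset.sum_congr rfl hAB, Finset.sum_add_distrib, map_sum, map_sum, Finset.sum_mul,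
    Finset.sum_mul]

/-- **The cusp forms are a line.** -/
theorem eq_mul_cuspInt {k : ℕ} (hk : k ∈ sixWeights) {S : PowerSeries ℚ} (h : IsRatForm k S)
    (h0 : coeff 0 S = 0) : S = C (coeff 1 S) * (cuspInt k).map (Int.castRingHom ℚ) := by
  have key : ∀ T : PowerSeries ℚ, IsRatForm k T → coeff 0 T = 0 → ∃ A : ℂ,
      T.map (Rat.castHom ℂ) = C A * ((monoInt (monoPair k 0)).map (Int.castRingHom ℂ) -
        (monoInt (monoPair k 1)).map (Int.castRingHom ℂ)) := fun T hT hT0 => by
    obtain ⟨A, B, e⟩ := exists_monomials hk hT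
    refine ⟨A, ?_⟩
    have hc : ∀ q : ℕ × ℕ, constantCoeff (monoInt q) = 1 := fun q => by
      rw [monoInt, map_mul, map_pow, map_pow]
      simp [eFourInt, eSixInt, ← coeff_zero_eq_constantCoeff_apply]
    have hB : B = -A := by
      have e0 := congrArg (coeff 0) e
      rw [coeff_map, hT0, map_zero, map_add, coeff_C_mul, coeff_C_mul, coeff_map, coeff_map,
        coeff_zero_eq_constantCoeff_apply, coeff_zero_eq_constantCoeff_apply, hc, hc, map_one,
        mul_one, mul_one] at e0
      linear_combination -e0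
    rw [e, hB, map_neg]
    ring
  obtain ⟨A, hA⟩ := key S h h0
  obtain ⟨A₁, hA₁⟩ := key _ (isRatForm_cuspInt hk)
    (by rw [coeff_map, coeff_cuspInt_zero, map_zero])
  have e1 := congrArg (coeff 1) hA₁
  rw [coeff_map, coeff_map, coeff_cuspInt_one, map_one, map_one, coeff_C_mul] at e1
  have e2 := congrArg (coeff 1) hA
  rw [coeff_map, coeff_C_mul] at e2
  apply map_rat_injective
  rw [map_mul, map_C, hA, hA₁, ← mul_assoc, ← map_mul]
  congr 2
  rw [e2]
  linear_combination A * e1

/-- **The normalised cusp form is an eigenform.** -/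
theorem cuspInt_hecke {k : ℕ} (hk : k ∈ sixWeights) {l : ℕ} (hl : l.Prime) :
    tSer ((l : ℤ) ^ (k - 1)) l (cuspInt k) = C (coeff l (cuspInt k)) * cuspInt k := by
  have h12 := (exponents hk).1
  have h := eq_mul_cuspInt hk (isRatForm_tSer hl (isRatForm_cuspInt hk) (by omega)) (by
    rw [coeff_tSer, zero_mul, Nat.zero_div, if_pos (dvd_zero l), coeff_map, coeff_cuspInt_zero,
      map_zero, mul_zero, add_zero])
  have h1 : coeff 1 (tSer ((l : ℚ) ^ (k - 1)) l ((cuspInt k).map (Int.castRingHom ℚ))) =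
      ((coeff l (cuspInt k) : ℤ) : ℚ) := by
    rw [coeff_tSer, one_mul, if_neg hl.not_dvd_one, add_zero, coeff_map, eq_intCast]
  rw [h1] at h
  refine PowerSeries.map_injective (Int.castRingHom ℚ) Int.cast_injective ?_
  rw [map_tSer, map_mul, map_C, map_pow, map_natCast, eq_intCast]
  exact h

variable {p : ℕ} [Fact p.Prime]

theorem tSer_self {R : Type*} [CommRing R] (θ : R) (f : PowerSeries R) :
    tSer θ p f = uSer p f + C θ * vSer p f := by
  ext n
  rw [coeff_tSer, map_add, coeff_uSer, coeff_C_mul, coeff_vSer, mul_comm n p]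
  split_ifs <;> simp

/-- `U` modulo `p` on the cusp form. -/
theorem uSer_cusp_modP {k : ℕ} (hk : k ∈ sixWeights) :
    uSer p ((cuspInt k).map (Int.castRingHom (ZMod p))) =
      C ((coeff p (cuspInt k) : ℤ) : ZMod p) * (cuspInt k).map (Int.castRingHom (ZMod p)) := by
  have h12 := (exponents hk).1
  have h := congrArg (PowerSeries.map (Int.castRingHom (ZMod p)))
    (cuspInt_hecke hk (Fact.out : p.Prime))
  rw [map_tSer, map_mul, map_C, map_pow, map_natCast, ZMod.natCast_self,
    zero_pow (by omega), eq_intCast, tSer_self, map_zero, zero_mul, add_zero] at h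
  exact h

theorem cusp_mem_ordModP (h5 : 5 ≤ p) {k : ℕ} (hk : k ∈ sixWeights)
    (ha : ¬(p : ℤ) ∣ coeff p (cuspInt k)) :
    (cuspInt k).map (Int.castRingHom (ZMod p)) ∈ ordModP p k := by
  refine (mem_ordModP h5).2 ⟨?_, p - 1, by omega, ?_⟩
  · obtain ⟨F, hF⟩ := isRatForm_cuspInt hk
    refine ⟨F, cuspInt k, ?_, rfl⟩
    rw [hF, map_int_rat]
  · obtain ⟨a, hae⟩ : ∃ a : ZMod p, a = ((coeff p (cuspInt k) : ℤ) : ZMod p) := ⟨_, rfl⟩
    have hpow : ∀ i, uPow p i ((cuspInt k).map (Int.castRingHom (ZMod p))) =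
        C (a ^ i) * (cuspInt k).map (Int.castRingHom (ZMod p)) := fun i => by
      induction i with
      | zero => rw [uPow_zero, pow_zero, map_one, one_mul]
      | succ i ih =>
        rw [← uPow_add', uPow_one, uSer_cusp_modP hk, ← hae, uPow_C_mul, ih, ← mul_assoc,
          ← map_mul, pow_succ']
    rw [hpow, ZMod.pow_card_sub_one_eq_one (fun e => ha ?_), map_one, one_mul]
    rw [← ZMod.intCast_zmod_eq_zero_iff_dvd, ← hae, e]

/-- **The forms modulo `p` have dimension at most two.** -/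
theorem finrank_ordModP_le (h5 : 5 ≤ p) {k : ℕ} (hk : k ∈ sixWeights) :
    Module.finrank (ZMod p) ↥(ordModP p k) ≤ 2 := by
  classical
  obtain ⟨d, hd⟩ : ∃ d : Fin 2 → Fin 2 →₀ ℕ, ∀ i, d i =
      Finsupp.single 0 (monoPair k i).1 + Finsupp.single 1 (monoPair k i).2 := ⟨_, fun _ => rfl⟩
  obtain ⟨T, hT⟩ : ∃ T : Finset (PowerSeries (ZMod p)),
      T = Finset.univ.image fun i => phi p (MvPolynomial.monomial (d i) 1) := ⟨_, rfl⟩
  have hle : ordModP p k ≤ Submodule.span (ZMod p) (T : Set (PowerSeries (ZMod p))) := by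
    intro v hv
    obtain ⟨F, hF, rfl⟩ := ((mem_ordModP h5).1 hv).1.exists_isob h5
    rw [F.as_sum, map_sum]
    refine Submodule.sum_mem _ fun e he => ?_
    have hw := hF (MvPolynomial.mem_support_iff.1 he)
    rw [weight_eq] at hw
    obtain ⟨i, hi⟩ : ∃ i, e = d i := by
      rcases (exponents hk).2.2.2 _ _ hw with ⟨h0, h1⟩ | ⟨h0, h1⟩
      · refine ⟨0, Finsupp.ext fun j => ?_⟩
        rw [hd]
        fin_cases j <;> simp [monoPair, h0, h1]
      · refine ⟨1, Finsupp.ext fun j => ?_⟩
        rw [hd]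
        fin_cases j <;> simp [monoPair, h0, h1]
    rw [hi, show MvPolynomial.monomial (d i) (MvPolynomial.coeff (d i) F) =
      MvPolynomial.C (MvPolynomial.coeff (d i) F) * MvPolynomial.monomial (d i) 1 by
        rw [MvPolynomial.C_mul_monomial, mul_one], map_mul,
      show phi p (MvPolynomial.C (MvPolynomial.coeff (d i) F)) =
        C (MvPolynomial.coeff (d i) F) by simp [phi], ← PowerSeries.smul_eq_C_mul]
    exact Submodule.smul_mem _ _ (Submodule.subset_span (by simp [hT]))
  refine (Submodule.finrank_mono hle).trans ((finrank_span_finset_le_card T).trans ?_)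
  rw [hT]
  exact Finset.card_image_le.trans (by simp)

end FA.DeltaFamily

end
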