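import Fermat.Agent.DeltaFamily.Forms

/-!
# The family through the cusp form

For `k` one of the six weights and `p` not dividing the eigenvalue, the cuspidal families of the
class of `k` have rank one: one normalised family goes through the stabilisation of the cusp form.
-/

set_option autoImplicit false
set_option linter.unusedSectionVars false

noncomputable section

open PowerSeries Filter Topology

namespace FA.DeltaFamily

open FA.PadicForms FA.OrdinaryProj FA.LambdaForms FA.LambdaHecke FA.LambdaEisenstein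

variable {p : ℕ} [Fact p.Prime] {hp2 : p ≠ 2} {c : ZMod (p - 1)} {k : ℕ}

local notation "Λ" => PowerSeries ℤ_[p]

theorem even_class (hk : k ∈ sixWeights) (hkc : (k : ZMod (p - 1)) = c) : Even c :=
  hkc ▸ ((exponents hk).2.1).natCast

/-- A cuspidal family lifting the cusp form modulo `p`. -/
theorem exists_cusp_lift (h5 : 5 ≤ p) (hk : k ∈ sixWeights) (hkc : (k : ZMod (p - 1)) = c)
    (ha : ¬(p : ℤ) ∣ coeff p (cuspInt k)) :
    ∃ G : ↥(cuspMod hp2 c), ∀ s, redSer p (spec hp2 s ((G : ↥(lamOrd hp2 c)) : PowerSeries Λ)) =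
      (cuspInt k).map (Int.castRingHom (ZMod p)) := by
  obtain ⟨G, hG, hGr⟩ := exists_family_lift (hp2 := hp2) h5 (cusp_mem_ordModP h5 hk ha) hkc
  obtain ⟨e, he, π, hπ, -⟩ := exists_split (hp2 := hp2) h5 (even_class hk hkc)
  refine ⟨π ⟨G, (mem_lamOrd h5).2 hG⟩, fun s => ?_⟩
  have h0 : PadicInt.toZMod (evalLam hp2 s (coeff 0 G)) = 0 := by
    rw [← coeff_spec, ← coeff_redSer, hGr, coeff_map, coeff_cuspInt_zero, map_zero]
  rw [hπ, Submodule.coe_sub, Submodule.coe_smul, PowerSeries.smul_eq_C_mul, map_sub, map_mul,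
    map_sub, map_mul, spec_C, coefL_apply, redSer, map_C, h0, map_zero, zero_mul, sub_zero]
  exact hGr s

/-- **The cuspidal rank is one.** -/
theorem finrank_cuspMod (h5 : 5 ≤ p) (hk : k ∈ sixWeights) (hkc : (k : ZMod (p - 1)) = c)
    (ha : ¬(p : ℤ) ∣ coeff p (cuspInt k)) : Module.finrank Λ ↥(cuspMod hp2 c) = 1 := by
  obtain ⟨hfree, hfin, hrk⟩ := cuspMod_free (hp2 := hp2) h5 (even_class hk hkc)
  obtain ⟨G, hG⟩ := exists_cusp_lift (hp2 := hp2) h5 hk hkc ha
  have hne : G ≠ 0 := fun e => by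
    have h := congrArg (coeff 1) (hG 0)
    rw [e, Submodule.coe_zero, Submodule.coe_zero, map_zero, map_zero, map_zero, coeff_map,
      coeff_cuspInt_one, map_one] at h
    exact zero_ne_one h
  have : Nontrivial ↥(cuspMod hp2 c) := ⟨⟨G, 0, hne⟩⟩
  have hpos := Module.finrank_pos (R := Λ) (M := ↥(cuspMod hp2 c))
  have h2 : Module.finrank Λ ↥(lamOrd hp2 c) ≤ 2 := by
    rw [(FA.LambdaForms.Summary.lambda_free h5).2.2 0,
      (finrank_ordPart (κ := ((c, 0) : Weights p)) h5 (by have := (exponents hk).1; omega) hkc).2]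
    exact finrank_ordModP_le h5 hk
  omega

/-- **The family.** -/
theorem exists_deltaFam (h5 : 5 ≤ p) (hk : k ∈ sixWeights) (hkc : (k : ZMod (p - 1)) = c)
    (ha : ¬(p : ℤ) ∣ coeff p (cuspInt k)) :
    ∃ F : ↥(cuspMod hp2 c), coeff 1 ((F : ↥(lamOrd hp2 c)) : PowerSeries Λ) = 1 ∧
      (∀ S : ↥(cuspMod hp2 c), S = coeff 1 ((S : ↥(lamOrd hp2 c)) : PowerSeries Λ) • F) ∧
      ∀ s, redSer p (spec hp2 s ((F : ↥(lamOrd hp2 c)) : PowerSeries Λ)) =
        (cuspInt k).map (Int.castRingHom (ZMod p)) := by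
  obtain ⟨hfree, hfin, -⟩ := cuspMod_free (hp2 := hp2) h5 (even_class hk hkc)
  obtain ⟨G, hG⟩ := exists_cusp_lift (hp2 := hp2) h5 hk hkc ha
  obtain ⟨a1, ha1⟩ : ∃ a1 : ↥(cuspMod hp2 c) →ₗ[Λ] Λ,
      a1 = (coefL hp2 c 1).comp (cuspMod hp2 c).subtype := ⟨_, rfl⟩
  have ha1' : ∀ S : ↥(cuspMod hp2 c), a1 S = coeff 1 ((S : ↥(lamOrd hp2 c)) : PowerSeries Λ) :=
    fun S => by rw [ha1]; rfl
  have hGs : ∀ s, PadicInt.toZMod (evalLam hp2 s (a1 G)) = 1 := fun s => by
    rw [ha1', ← coeff_spec, ← coeff_redSer, hG, coeff_map, coeff_cuspInt_one, map_one]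
  have hu : IsUnit (a1 G) := by
    rw [isUnit_iff_evalLam (hp2 := hp2) 0]
    by_contra hn
    have h := hGs 0
    rw [FA.PadicIwasawa.toZMod_eq_zero_iff_norm.2 (PadicInt.not_isUnit_iff.1 hn)] at h
    exact zero_ne_one h
  obtain ⟨u, hu⟩ := hu
  have b := Module.finBasisOfFinrankEq Λ ↥(cuspMod hp2 c) (finrank_cuspMod h5 hk hkc ha)
  have hb : ∀ S, S = b.repr S 0 • b 0 := fun S => by
    conv_lhs => rw [← b.sum_repr S, Fin.sum_univ_one]
  have hb1 : a1 (b 0) ≠ 0 := fun e => by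
    have h := congrArg a1 (hb G)
    rw [map_smul, e, smul_zero, ← hu] at h
    exact u.ne_zero h
  have hz : ∀ S, a1 S = 0 → S = 0 := fun S hS => by
    rw [hb S, map_smul, smul_eq_mul, mul_eq_zero] at hS
    rw [hb S, hS.resolve_right hb1, zero_smul]
  have hinj : Function.Injective a1 := fun x y e => sub_eq_zero.1 (hz _ (by
    rw [map_sub, e, sub_self]))
  refine ⟨(↑u⁻¹ : Λ) • G, ?_, fun S => hinj ?_, fun s => ?_⟩
  · rw [← ha1', map_smul, ← hu, smul_eq_mul, Units.inv_mul]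
  · rw [← ha1', map_smul, smul_eq_mul, map_smul, ← hu, smul_eq_mul, Units.inv_mul, mul_one]
  · have h1 : PadicInt.toZMod (evalLam hp2 s (↑u⁻¹ : Λ)) = 1 := by
      have h := congrArg (fun x => PadicInt.toZMod (evalLam hp2 s x)) (Units.inv_mul u)
      simp only [map_mul, map_one] at h
      rwa [hu, hGs, mul_one] at h
    rw [Submodule.coe_smul, Submodule.coe_smul, PowerSeries.smul_eq_C_mul, map_mul, map_mul,
      spec_C, redSer, map_C, h1, map_one, one_mul]
    exact hG s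

variable (hp2) in
/-- The normalised family through the cusp form of weight `k`. -/
def deltaFam (h5 : 5 ≤ p) (hk : k ∈ sixWeights) (hkc : (k : ZMod (p - 1)) = c)
    (ha : ¬(p : ℤ) ∣ coeff p (cuspInt k)) : PowerSeries (PowerSeries ℤ_[p]) :=
  ((exists_deltaFam (hp2 := hp2) h5 hk hkc ha).choose : ↥(lamOrd hp2 c))

variable {h5 : 5 ≤ p} {hk : k ∈ sixWeights} {hkc : (k : ZMod (p - 1)) = c}
  {ha : ¬(p : ℤ) ∣ coeff p (cuspInt k)}

theorem deltaFam_mem : deltaFam hp2 h5 hk hkc ha ∈ lamOrd hp2 c :=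
  (exists_deltaFam (hp2 := hp2) h5 hk hkc ha).choose.1.2

theorem deltaFam_zero : coeff 0 (deltaFam hp2 h5 hk hkc ha) = 0 :=
  mem_cuspMod.1 (exists_deltaFam (hp2 := hp2) h5 hk hkc ha).choose.2

theorem deltaFam_one : coeff 1 (deltaFam hp2 h5 hk hkc ha) = 1 :=
  (exists_deltaFam (hp2 := hp2) h5 hk hkc ha).choose_spec.1

theorem redSer_deltaFam (s : ℤ_[p]) :
    redSer p (spec hp2 s (deltaFam hp2 h5 hk hkc ha)) =
      (cuspInt k).map (Int.castRingHom (ZMod p)) :=
  (exists_deltaFam (hp2 := hp2) h5 hk hkc ha).choose_spec.2.2 s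

/-- **Every cuspidal family is a multiple.** -/
theorem eq_mul_deltaFam (h5 : 5 ≤ p) (hk : k ∈ sixWeights) (hkc : (k : ZMod (p - 1)) = c)
    (ha : ¬(p : ℤ) ∣ coeff p (cuspInt k)) {S : PowerSeries (PowerSeries ℤ_[p])}
    (hS : S ∈ lamOrd hp2 c) (h0 : coeff 0 S = 0) :
    S = C (coeff 1 S) * deltaFam hp2 h5 hk hkc ha := by
  have h := (exists_deltaFam (hp2 := hp2) h5 hk hkc ha).choose_spec.2.1
    ⟨⟨S, hS⟩, mem_cuspMod.2 h0⟩
  have h' := congrArg (fun x : ↥(cuspMod hp2 c) => ((x : ↥(lamOrd hp2 c)) : PowerSeries Λ)) h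
  simp only [Submodule.coe_smul] at h'
  rw [← PowerSeries.smul_eq_C_mul]
  exact h'

theorem deltaFam_uSer : uSer p (deltaFam hp2 h5 hk hkc ha) =
    C (coeff p (deltaFam hp2 h5 hk hkc ha)) * deltaFam hp2 h5 hk hkc ha := by
  have h := eq_mul_deltaFam h5 hk hkc ha ((mem_lamOrd h5).2
    (isLamOrd_uSer h5 ((mem_lamOrd h5).1 (deltaFam_mem (hp2 := hp2) (h5 := h5) (hk := hk)
      (hkc := hkc) (ha := ha))))) (by rw [coeff_uSer, mul_zero, deltaFam_zero])
  rwa [coeff_uSer, mul_one] at h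

theorem deltaFam_tSer {l : ℕ} (hl : l.Prime) (hlp : l ≠ p) :
    tSer (thetaLam c l) l (deltaFam hp2 h5 hk hkc ha) =
      C (coeff l (deltaFam hp2 h5 hk hkc ha)) * deltaFam hp2 h5 hk hkc ha := by
  have h := eq_mul_deltaFam h5 hk hkc ha ((mem_lamOrd h5).2
    (isLamOrd_tSer h5 hl hlp ((mem_lamOrd h5).1 (deltaFam_mem (hp2 := hp2) (h5 := h5) (hk := hk)
      (hkc := hkc) (ha := ha))))) (by
        rw [coeff_tSer, zero_mul, Nat.zero_div, if_pos (dvd_zero l), deltaFam_zero, mul_zero,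
          add_zero])
  rwa [coeff_tSer, one_mul, if_neg hl.not_dvd_one, add_zero] at h

/-- **The cuspidal Hecke algebra is `Λ`.** -/
theorem algebraMap_bijective (h5 : 5 ≤ p) (hk : k ∈ sixWeights)
    (hkc : (k : ZMod (p - 1)) = c) (ha : ¬(p : ℤ) ∣ coeff p (cuspInt k)) (hc0 : c ≠ 0)
    (hev : Even c) : Function.Bijective (algebraMap Λ ↥(cuspAlg hp2 h5 hc0 hev)) := by
  obtain ⟨F, hF1, hFu, -⟩ := exists_deltaFam (hp2 := hp2) h5 hk hkc ha
  refine ⟨fun a b e => ?_, fun g => ⟨coeff 1 (((g : Module.End Λ ↥(cuspMod hp2 c)) F :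
    ↥(lamOrd hp2 c)) : PowerSeries Λ), ?_⟩⟩
  · have h := congrArg (fun g : ↥(cuspAlg hp2 h5 hc0 hev) =>
      coeff 1 (((g : Module.End Λ ↥(cuspMod hp2 c)) F : ↥(lamOrd hp2 c)) : PowerSeries Λ)) e
    simp only [Subalgebra.coe_algebraMap, Module.algebraMap_end_apply, Submodule.coe_smul,
      map_smul, hF1, smul_eq_mul, mul_one] at h
    exact h
  · refine Subtype.ext (LinearMap.ext fun S => ?_)
    rw [Subalgebra.coe_algebraMap, Module.algebraMap_end_apply]
    conv_rhs => rw [hFu S, map_smul, hFu ((g : Module.End Λ ↥(cuspMod hp2 c)) F)]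
    conv_lhs => rw [hFu S]
    rw [smul_smul, smul_smul, mul_comm]

/-- The cuspidal ordinary forms of each weight are the multiples of the value. -/
theorem eq_mul_spec (h5 : 5 ≤ p) (hk : k ∈ sixWeights) (hkc : (k : ZMod (p - 1)) = c)
    (ha : ¬(p : ℤ) ∣ coeff p (cuspInt k)) {s : ℤ_[p]} {f : PowerSeries ℚ_[p]}
    (hf : f ∈ ordPart ((c, s) : Weights p)) (h0 : coeff 0 f = 0) :
    f = C (coeff 1 f) * toQps p (spec hp2 s (deltaFam hp2 h5 hk hkc ha)) := by
  obtain ⟨hf1, hf2⟩ := (FA.OrdinaryProj.mem_ordPart h5).1 hf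
  obtain ⟨d, g, hd, hg, rfl⟩ := exists_int_scale hf1
  rw [ordProj_C_mul h5 hg] at hf2
  have hge := mul_left_cancel₀ ((map_ne_zero_iff _ PowerSeries.C_injective).2 hd) hf2
  rw [coeff_C_mul, mul_eq_zero] at h0
  have hg0 : coeff 0 g = 0 := by
    have h := h0.resolve_left hd
    rw [coeff_toQps, PadicInt.coe_eq_zero] at h
    exact h
  obtain ⟨G, hG, hGg⟩ :=
    (FA.LambdaForms.Summary.lambda_specialisation (hp2 := hp2) h5 s).1 g hg hge
  obtain ⟨e, -, π, hπ, -⟩ := exists_split (hp2 := hp2) h5 (even_class hk hkc)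
  obtain ⟨S, hS⟩ : ∃ S, S = (π ⟨G, hG⟩ : ↥(lamOrd hp2 c)) := ⟨_, rfl⟩
  have hS0 : coeff 0 (S : PowerSeries Λ) = 0 := hS ▸ mem_cuspMod.1 (π ⟨G, hG⟩).2
  have hSg : spec hp2 s (S : PowerSeries Λ) = g := by
    rw [hS, hπ, Submodule.coe_sub, Submodule.coe_smul, PowerSeries.smul_eq_C_mul, map_sub, map_mul,
      spec_C, coefL_apply, ← coeff_spec]
    show spec hp2 s G - C (coeff 0 (spec hp2 s G)) * _ = g
    rw [show spec hp2 s G = g from hGg, hg0, map_zero, zero_mul, sub_zero]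
  have h' := congrArg (spec hp2 s) (eq_mul_deltaFam h5 hk hkc ha S.2 hS0)
  rw [hSg, map_mul, spec_C] at h'
  have h1 := congrArg (coeff 1) h'
  rw [coeff_C_mul, coeff_spec s (deltaFam hp2 h5 hk hkc ha), deltaFam_one, map_one, mul_one] at h1
  rw [← h1] at h'
  conv_lhs => rw [h']
  rw [coeff_C_mul, coeff_toQps, map_mul, toQps, map_C, map_mul, mul_assoc]
  rfl

theorem uSer_vSer (f : PowerSeries ℚ_[p]) : uSer p (vSer p f) = f :=
  PowerSeries.ext fun n => by
    rw [coeff_uSer, coeff_vSer, if_pos (dvd_mul_right p n),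
      Nat.mul_div_cancel_left _ (Fact.out : p.Prime).pos]

theorem uSer_C_mul (a : ℚ_[p]) (f : PowerSeries ℚ_[p]) :
    uSer p (C a * f) = C a * uSer p f :=
  PowerSeries.ext fun n => by rw [coeff_uSer, coeff_C_mul, coeff_C_mul, coeff_uSer]

/-- **The value at `k` is the stabilised cusp form.** -/
theorem deltaFam_at_weight (h5 : 5 ≤ p) (hk : k ∈ sixWeights) (hkc : (k : ZMod (p - 1)) = c)
    (ha : ¬(p : ℤ) ∣ coeff p (cuspInt k)) :
    ∃ α β : ℤ_[p], IsUnit α ∧ α + β = ((coeff p (cuspInt k) : ℤ) : ℤ_[p]) ∧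
      α * β = (p : ℤ_[p]) ^ (k - 1) ∧
      toQps p (spec hp2 (k : ℤ_[p]) (deltaFam hp2 h5 hk hkc ha)) =
        toQps p ((cuspInt k).map (Int.castRingHom ℤ_[p])) -
          C (β : ℚ_[p]) * vSer p (toQps p ((cuspInt k).map (Int.castRingHom ℤ_[p]))) := by
  obtain ⟨g, hg⟩ : ∃ g, g = spec hp2 (k : ℤ_[p]) (deltaFam hp2 h5 hk hkc ha) := ⟨_, rfl⟩
  obtain ⟨f, hf⟩ : ∃ f, f = (cuspInt k).map (Int.castRingHom ℤ_[p]) := ⟨_, rfl⟩
  obtain ⟨α, hα⟩ : ∃ α, α = coeff p g := ⟨_, rfl⟩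
  obtain ⟨a, hae⟩ : ∃ a : ℤ_[p], a = ((coeff p (cuspInt k) : ℤ) : ℤ_[p]) := ⟨_, rfl⟩
  obtain ⟨q, hq⟩ : ∃ q : ℤ_[p], q = (p : ℤ_[p]) ^ (k - 1) := ⟨_, rfl⟩
  rw [← hg, ← hf, ← hae, ← hq]
  have h12 := (exponents hk).1
  have hfr : redSer p f = (cuspInt k).map (Int.castRingHom (ZMod p)) :=
    PowerSeries.ext fun n => by simp [hf]
  have hff : IsPadicForm (toQps p f) ((c, (k : ℤ_[p])) : Weights p) := by
    have h := (isRatForm_cuspInt hk).isPadicForm (p := p)
    rw [show ((c, (k : ℤ_[p])) : Weights p) = natWeight p k by rw [natWeight, hkc],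
      show toQps p f = toQp p ((cuspInt k).map (Int.castRingHom ℚ)) from
        PowerSeries.ext fun n => by simp [hf]]
    exact h
  have hunit : IsUnit α := by
    by_contra hn
    have h := congrArg (coeff p) (redSer_deltaFam (hp2 := hp2) (h5 := h5) (hk := hk) (hkc := hkc)
      (ha := ha) (k : ℤ_[p]))
    rw [← hg, coeff_redSer, ← hα,
      FA.PadicIwasawa.toZMod_eq_zero_iff_norm.2 (PadicInt.not_isUnit_iff.1 hn), coeff_map,
      eq_intCast] at h
    exact ha ((ZMod.intCast_zmod_eq_zero_iff_dvd _ _).1 h.symm)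
  have hgU : uSer p (toQps p g) = C (α : ℚ_[p]) * toQps p g := by
    have h := congrArg (spec hp2 (k : ℤ_[p])) (deltaFam_uSer (hp2 := hp2) (h5 := h5) (hk := hk)
      (hkc := hkc) (ha := ha))
    rw [map_mul, spec_C, ← coeff_spec (k : ℤ_[p]) _ p, ← hg, ← hα,
      show spec hp2 (k : ℤ_[p]) (uSer p (deltaFam hp2 h5 hk hkc ha)) = uSer p g from
        PowerSeries.ext fun n => by simp [coeff_uSer, hg]] at h
    have h' := congrArg (toQps p) h
    rw [map_mul, toQps, map_C, ← toQps] at h'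
    rw [show uSer p (toQps p g) = toQps p (uSer p g) from
      PowerSeries.ext fun n => by simp [coeff_uSer]]
    exact h'
  have hrel : uSer p (toQps p f) + C (q : ℚ_[p]) * vSer p (toQps p f) =
      C (a : ℚ_[p]) * toQps p f := by
    have h := congrArg (fun T => toQps p (PowerSeries.map (Int.castRingHom ℤ_[p]) T))
      (cuspInt_hecke hk (Fact.out : p.Prime))
    simp only [toQps, map_tSer, map_mul, map_C, map_pow, map_natCast] at h
    rw [eq_intCast, map_intCast, ← toQps, tSer_self, ← hf] at h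
    rw [hq, hae, PadicInt.coe_pow, PadicInt.coe_natCast]
    exact h
  -- the ordinary projection
  obtain ⟨hfix, d, hd, hdv⟩ := (mem_ordModP h5).1 (cusp_mem_ordModP (p := p) h5 hk ha)
  obtain ⟨L, hLf, hLe, -, hLr⟩ := redSer_ordProj h5 (κ := ((c, (k : ℤ_[p])) : Weights p)) hff hd
    (by rw [hfr]; exact hdv)
  have hL0 : coeff 0 (toQps p L) = 0 := by
    rw [← hLe]
    refine tendsto_nhds_unique (tendsto_coeff (ordProj_spec h5 hff).1 0)
      (tendsto_const_nhds.congr fun i => ?_)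
    rw [coeff_uPow, mul_zero, coeff_toQps, hf, coeff_map, coeff_cuspInt_zero, map_zero]
    rfl
  obtain ⟨γ, hγ⟩ : ∃ γ, γ = coeff 1 (toQps p L) := ⟨_, rfl⟩
  have hLg : ordProj p (toQps p f) = C γ * toQps p g := by
    have h := eq_mul_spec (hp2 := hp2) h5 hk hkc ha (hLe ▸ ordProj_mem h5 hff) hL0
    rw [← hγ, ← hg] at h
    rw [hLe, ← h]
  have hγ0 : γ ≠ 0 := fun e => by
    rw [hγ, coeff_toQps, PadicInt.coe_eq_zero] at e
    have h := congrArg (coeff 1) hLr
    rw [coeff_redSer, e, map_zero, hfr, coeff_map, coeff_cuspInt_one, map_one] at h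
    exact zero_ne_one h
  have hg1 : coeff 1 (toQps p g) = 1 := by
    rw [coeff_toQps, hg, coeff_spec, deltaFam_one, map_one, PadicInt.coe_one]
  have hquad : (α : ℚ_[p]) * α + q = a * α := by
    have h1 := congrArg (uSer p) hrel
    rw [uSer_C_mul, show uSer p (uSer p (toQps p f) + C (q : ℚ_[p]) * vSer p (toQps p f)) =
        uSer p (uSer p (toQps p f)) + C (q : ℚ_[p]) * toQps p f from
      PowerSeries.ext fun n => by
        rw [coeff_uSer, map_add, coeff_C_mul, map_add, coeff_uSer, coeff_C_mul, ← coeff_uSer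
          (p := p) (vSer p (toQps p f)) n, uSer_vSer, coeff_uSer, coeff_uSer]] at h1
    have h2 := congrArg (ordProj p) h1
    rw [ordProj_add h5 ((hff.uSer h5).uSer h5) (hff.C_mul _), ordProj_C_mul h5 hff,
      ordProj_C_mul h5 (hff.uSer h5), ordProj_uSer h5 (hff.uSer h5), ordProj_uSer h5 hff, hLg,
      uSer_C_mul, hgU, uSer_C_mul, uSer_C_mul, hgU] at h2
    have h3 := congrArg (coeff 1) h2
    simp only [map_add, coeff_C_mul, hg1, mul_one] at h3
    exact mul_left_cancel₀ hγ0 (by linear_combination h3)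
  refine ⟨α, a - α, hunit, by ring, ?_, ?_⟩
  · refine Subtype.ext ?_
    push_cast
    linear_combination -hquad
  obtain ⟨fα, hfα⟩ : ∃ fα, fα = toQps p f -
      C ((a - α : ℤ_[p]) : ℚ_[p]) * vSer p (toQps p f) := ⟨_, rfl⟩
  rw [← hfα]
  have hform : IsPadicForm fα ((c, (k : ℤ_[p])) : Weights p) :=
    hfα ▸ hff.sub h5 ((hff.vSer h5).C_mul _)
  have hU : uSer p fα = C (α : ℚ_[p]) * fα := by
    rw [hfα, uSer_sub, uSer_C_mul, uSer_vSer, eq_sub_of_add_eq hrel]
    refine PowerSeries.ext fun n => ?_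
    simp only [map_sub, sub_mul, mul_sub, ← mul_assoc, ← map_mul, PadicInt.coe_sub, coeff_C_mul]
    linear_combination -(coeff n (vSer p (toQps p f))) * hquad
  have h0 : coeff 0 fα = 0 := by
    rw [hfα, map_sub, coeff_C_mul, coeff_vSer, if_pos (dvd_zero p), Nat.zero_div, coeff_toQps, hf,
      coeff_map, coeff_cuspInt_zero, map_zero, PadicInt.coe_zero, mul_zero, sub_zero]
  have h1 : coeff 1 fα = 1 := by
    rw [hfα, map_sub, coeff_C_mul, coeff_vSer, if_neg (Fact.out : p.Prime).not_dvd_one, mul_zero,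
      sub_zero, coeff_toQps, hf, coeff_map, coeff_cuspInt_one, map_one, PadicInt.coe_one]
  have h := eq_mul_spec (hp2 := hp2) h5 hk hkc ha (eigen_mem_ordPart h5 hform hU
    (by rw [← PadicInt.norm_def]; exact PadicInt.isUnit_iff.1 hunit)) h0
  rw [h1, map_one, one_mul, ← hg] at h
  exact h.symm

/-- **Congruence with the Eisenstein family modulo the zeta element.** -/
theorem zeta_dvd_sub (h5 : 5 ≤ p) (hk : k ∈ sixWeights) (hkc : (k : ZMod (p - 1)) = c)
    (ha : ¬(p : ℤ) ∣ coeff p (cuspInt k)) (hc0 : c ≠ 0) (hev : Even c) (n : ℕ) :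
    zetaLam hp2 h5 hc0 hev ∣ coeff n (deltaFam hp2 h5 hk hkc ha) -
      coeff n (eisFam hp2 h5 hc0 hev : PowerSeries Λ) := by
  rw [← algebraMap_mem_eisIdeal, map_sub]
  have h1 := sub_mem_eisIdeal (hp2 := hp2) (h5 := h5) (hc0 := hc0) (hev := hev) (tOf h5 hc0 n)
  rw [eisHom_tOf] at h1
  obtain ⟨x, hx⟩ := (algebraMap_bijective h5 hk hkc ha hc0 hev).2
    (cuspMap hp2 h5 hc0 hev (tOf h5 hc0 n))
  suffices e : x = coeff n (deltaFam hp2 h5 hk hkc ha) by
    rw [← hx, e] at h1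
    exact h1
  have h2 := congrArg (fun g => cuspPairing hp2 h5 hc0 hev g
    (exists_deltaFam (hp2 := hp2) h5 hk hkc ha).choose) hx
  simp only [Algebra.algebraMap_eq_smul_one, map_smul, LinearMap.smul_apply, cuspPairing_map,
    pairing_tOf, coefL_apply, smul_eq_mul] at h2
  rw [show (cuspPairing hp2 h5 hc0 hev 1) (exists_deltaFam (hp2 := hp2) h5 hk hkc ha).choose = 1
    from (exists_deltaFam (hp2 := hp2) h5 hk hkc ha).choose_spec.1, mul_one] at h2
  exact h2

end FA.DeltaFamily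

end
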